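import Fermat.Agent.LT.T3.H893.NIntSpec

/-!
# Row LT, tower T3, sub-leaf T3.18a.4.2 = N.2 `PureUpperC` (helper846)

OFF-MAIN.  `pureUpperC846 : AS.N893.PureUpperC K` VERBATIM (NIntSpec of helper893,
sha256 `1ddb5c45`, byte-identical copy; closure: A0 `66d3374a`, T1/Spec `e8ae48d6`, T3/Spec
`44de320b`, T3/EKSpec `d0ed12cc`, ASSpec `a661c778`).

The pure tensor on `K⁰ B K⁰`: `finGL`, `infGL` are monoid homomorphisms and map `upperGL` to
`upperGL`; the components of an element of `K⁰` lie in `GL₂(𝒪_{v₀})` resp. in `U(2)`;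
bi-invariance of `f₀` and of the `F_w`.
-/

set_option autoImplicit false
set_option linter.style.haveILetI false
set_option linter.unusedSectionVars false

open IsDedekindDomain NumberField MeasureTheory
open Fermat.Agent.LT.H556.A0

noncomputable section

namespace Fermat.Agent.LT.T3.AS.N893.H846

variable (K : Type) [Field K] [NumberField K]

/-- `finGL` maps `upperGL` to `upperGL`. -/
theorem finGL_upperGL846 (v : HeightOneSpectrum (𝓞 K)) (c₁ c₂ : (Adl K)ˣ) (X : Adl K) :
    finGL K v (upperGL c₁ c₂ X) = upperGL (finU K v c₁) (finU K v c₂) (finHom K v X) := by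
  apply Units.ext
  ext i j
  fin_cases i <;> fin_cases j <;>
    simp [finGL, upperGL, finU, Matrix.GeneralLinearGroup.map]

/-- `infGL` maps `upperGL` to `upperGL`. -/
theorem infGL_upperGL846 (w : InfinitePlace K) (c₁ c₂ : (Adl K)ˣ) (X : Adl K) :
    infGL K w (upperGL c₁ c₂ X) = upperGL (infU K w c₁) (infU K w c₂) (infHom K w X) := by
  apply Units.ext
  ext i j
  fin_cases i <;> fin_cases j <;>
    simp [infGL, upperGL, infU, Matrix.GeneralLinearGroup.map]

/-- The component at `v` of an element of `K⁰` lies in `GL₂(𝒪_v)`. -/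
theorem isIntGL_finGL846 (v : HeightOneSpectrum (𝓞 K)) (k : G K) (hk : T1.IsStdCompact K k) :
    IsIntGL v (finGL K v k) := by
  intro i j
  refine ⟨(hk.1 v).1 i j, ?_⟩
  have h : (finGL K v k)⁻¹ = finGL K v k⁻¹ := (map_inv (finGL K v) k).symm
  rw [h]
  exact (hk.1 v).2 i j

/-- The component at `w` of an element of `K⁰` lies in `U(2)`. -/
theorem isUnitary2_infGL846 (w : InfinitePlace K) (k : G K) (hk : T1.IsStdCompact K k) :
    IsUnitary2 (infGL K w k) :=
  (hk.2 w).1

/-- **N.2 (the pure tensor on `K⁰ B K⁰`).** -/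
theorem pureUpperC846 : PureUpperC K := by
  intro 𝔫 v₀ f₀ F hf₀ hF k₁ k' hk₁ hk' c₁ c₂ X
  have h0 : f₀ (finGL K v₀ (k₁ * upperGL c₁ c₂ X * k'))
      = f₀ (upperGL (finU K v₀ c₁) (finU K v₀ c₂) (finHom K v₀ X)) := by
    rw [map_mul, map_mul, finGL_upperGL846]
    exact hf₀ _ _ _ (isIntGL_finGL846 K v₀ k₁ hk₁) (isIntGL_finGL846 K v₀ k' hk')
  have hw : ∀ w : InfinitePlace K, F w (infGL K w (k₁ * upperGL c₁ c₂ X * k'))
      = F w (upperGL (infU K w c₁) (infU K w c₂) (infHom K w X)) := by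
    intro w
    rw [map_mul, map_mul, infGL_upperGL846]
    exact (hF w).bi_inv _ _ _ (isUnitary2_infGL846 K w k₁ hk₁) (isUnitary2_infGL846 K w k' hk')
  unfold pureFn
  by_cases h : OutsideU K 𝔫 v₀ (k₁ * upperGL c₁ c₂ X * k')
  · rw [if_pos h, if_pos h, one_mul, h0]
    congr 1
    exact Finset.prod_congr rfl (fun w _ => hw w)
  · rw [if_neg h, if_neg h, zero_mul, zero_mul]

example : PureUpperC K := pureUpperC846 K

end Fermat.Agent.LT.T3.AS.N893.H846

end
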